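import Fermat.Agent.S54.FrobExists
import Fermat.Agent.S55.Bridge.InertiaConj

/-!
# S55 bridge, piece B14 (helper959): restriction is ONTO on decomposition and inertia groups

`A` a valuation subring of `ℚ̄` over a prime `ℓ`, `F/ℚ` a normal intermediate field,
`A_F := A.comap (algebraMap F ℚ̄)` the valuation subring of `F` below `A`.  Then restriction
`G_ℚ → Gal(F/ℚ)` maps the decomposition group `D_A` ONTO `D_{A_F}` and the inertia group `I_A`
ONTO `I_{A_F}` (Prelude `inertiaSubgroupIn`).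

Main results (namespace `Fermat.Agent.S55.Bridge.H959`):
* `exists_smul_prime_eq`, `exists_smul_valuationSubring_eq`: a closed subgroup `H ≤ G_ℚ` acts
  transitively on the primes of `ℤ̄` (valuation subrings of `ℚ̄`) with the same trace on the
  `H`-invariants;
* `restrict_mem_decomposition`, `restrict_mem_inertia` (easy directions);
* `exists_mem_decomposition_restrict_eq`, `exists_mem_inertia_restrict_eq` (surjectivity);
* `map_decompositionSubgroup`, `map_inertiaSubgroupIn` (equalities of subgroups of `Gal(F/ℚ)`);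
* `inertia_le_fixingSubgroup_iff`: `I_A ≤ G_F ↔ I_{A_F} = ⊥`.
-/

set_option autoImplicit false
set_option linter.style.haveILetI false

open scoped Pointwise
open IntermediateField

namespace Fermat.Agent.S55.Bridge.H959

open Fermat.Agent.S54 Fermat.Agent.S55.Bridge

/-- `ℚ̄`. -/
noncomputable abbrev Qb := AlgebraicClosure ℚ
/-- `G_ℚ`. -/
noncomputable abbrev GQ := Qb ≃ₐ[ℚ] Qb
/-- `ℤ̄`. -/
noncomputable abbrev Zb := integralClosure ℤ Qb

attribute [local instance] isAlgebraic_Qbar isGalois_Qbar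

/-! ## 0. General valuation-subring lemmas (any field) -/

section general

variable {K L : Type*} [Field K] [Field L] [Algebra K L]

/-- Nonunits of a valuation subring, without valuations. -/
theorem mem_nonunits_iff_inv_notMem (A : ValuationSubring L) (x : L) :
    x ∈ A.nonunits ↔ x = 0 ∨ x⁻¹ ∉ A := by
  rw [ValuationSubring.mem_nonunits_iff]
  rcases eq_or_ne x 0 with rfl | hx
  · simp
  · simp only [hx, false_or]
    rw [← A.valuation_le_one_iff, map_inv₀, not_le]
    have hpos : 0 < A.valuation x := by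
      rw [zero_lt_iff]
      exact (A.valuation.ne_zero_iff).2 hx
    rw [one_lt_inv₀ hpos]

/-- Nonunits of a comap. -/
theorem mem_nonunits_comap_iff {F : Type*} [Field F] (A : ValuationSubring L) (f : F →+* L)
    (x : F) : x ∈ (A.comap f).nonunits ↔ f x ∈ A.nonunits := by
  rw [mem_nonunits_iff_inv_notMem, mem_nonunits_iff_inv_notMem, ValuationSubring.mem_comap,
    map_inv₀, map_eq_zero_iff f f.injective]

/-- Membership in the decomposition group, elementwise (any field). -/
theorem mem_decomposition_iff (A : ValuationSubring L) (σ : L ≃ₐ[K] L) :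
    σ ∈ A.decompositionSubgroup K ↔ ∀ x, σ x ∈ A ↔ x ∈ A := by
  rw [MulAction.mem_stabilizer_iff]
  constructor
  · intro h x
    have hinv : σ⁻¹ • A = A := by
      conv_lhs => rw [← h]
      rw [inv_smul_smul]
    have h1 := ValuationSubring.mem_pointwise_smul_iff_inv_smul_mem (S := A)
      (g := σ⁻¹) (x := x)
    rw [hinv, inv_inv] at h1
    rw [h1]
    rfl
  · intro h
    apply SetLike.ext
    intro x
    rw [ValuationSubring.mem_pointwise_smul_iff_inv_smul_mem]
    have h2 := h (σ⁻¹ • x)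
    rw [AlgEquiv.smul_def] at h2 ⊢
    rw [← h2]
    have : σ (σ⁻¹ x) = x := by
      show (σ * σ⁻¹) x = x
      rw [mul_inv_cancel]
      rfl
    rw [this]

/-- Membership in the (Prelude) inertia group, elementwise (any field). -/
theorem mem_inertia_iff (A : ValuationSubring L) (σ : L ≃ₐ[K] L) :
    σ ∈ A.inertiaSubgroupIn K ↔
      σ ∈ A.decompositionSubgroup K ∧ ∀ z ∈ A, σ z - z ∈ A.nonunits := by
  constructor
  · rintro ⟨g, hg, rfl⟩
    refine ⟨g.2, fun z hzA => ?_⟩
    have h1 : MulSemiringAction.toRingAut (A.decompositionSubgroup K)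
        (IsLocalRing.ResidueField A) g = 1 := hg
    have h2 : g • (IsLocalRing.residue A ⟨z, hzA⟩) = IsLocalRing.residue A ⟨z, hzA⟩ := by
      have := congrArg (fun f => f (IsLocalRing.residue A ⟨z, hzA⟩)) h1
      simpa using this
    rw [← IsLocalRing.ResidueField.residue_smul] at h2
    have h3 : (g • (⟨z, hzA⟩ : A)) - ⟨z, hzA⟩ ∈ IsLocalRing.maximalIdeal A := by
      rw [← Ideal.Quotient.eq]
      exact h2
    rw [ValuationSubring.valuation_lt_one_iff] at h3
    rw [ValuationSubring.mem_nonunits_iff]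
    exact h3
  · rintro ⟨hD, h⟩
    refine ⟨⟨σ, hD⟩, ?_, rfl⟩
    show (⟨σ, hD⟩ : A.decompositionSubgroup K) ∈ MonoidHom.ker
      (MulSemiringAction.toRingAut (A.decompositionSubgroup K) (IsLocalRing.ResidueField A))
    rw [MonoidHom.mem_ker]
    apply RingEquiv.ext
    intro y
    obtain ⟨x, rfl⟩ := IsLocalRing.residue_surjective y
    show (⟨σ, hD⟩ : A.decompositionSubgroup K) • (IsLocalRing.residue A x)
      = IsLocalRing.residue A x
    rw [← IsLocalRing.ResidueField.residue_smul]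
    rw [← sub_eq_zero, ← map_sub, IsLocalRing.residue_eq_zero_iff]
    have h3 := h x.1 x.2
    rw [ValuationSubring.mem_nonunits_iff] at h3
    rw [ValuationSubring.valuation_lt_one_iff]
    exact h3

end general

/-! ## 1. Valuation subrings of `ℚ̄` and primes of `ℤ̄` -/

section primes

/-- A valuation subring of `ℚ̄` over a prime number is determined by the prime of `ℤ̄` below. -/
theorem le_of_primeBelow_eq (A A' : ValuationSubring Qb) (ℓ : ℕ) (hℓ : ℓ.Prime)
    (hA : A.LiesOverPrime ℓ) (h : primeBelow A = primeBelow A') : A ≤ A' := by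
  intro x hx
  obtain ⟨b, s, hb, hs, hsA, hxs⟩ := (mem_valuationSubring_iff A ℓ hℓ hA x).mp hx
  have hbA : b ∈ A' := isIntegral_mem_valuationSubring A' hb
  have hsA' : s ∉ A'.nonunits := by
    intro hcon
    apply hsA
    have h1 : (⟨s, hs⟩ : Zb) ∈ primeBelow A' := hcon
    rw [← h] at h1
    exact h1
  have hs0 : s ≠ 0 := fun h0 => hsA (h0 ▸ A.nonunits.zero_mem)
  have hsinv : s⁻¹ ∈ A' := by
    by_contra hcon
    exact hsA' ((mem_nonunits_iff_inv_notMem A' s).mpr (Or.inr hcon))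
  have : x = b * s⁻¹ := by
    rw [← hxs]; field_simp
  rw [this]
  exact A'.mul_mem _ _ hbA hsinv

theorem eq_of_primeBelow_eq (A A' : ValuationSubring Qb) (ℓ : ℕ) (hℓ : ℓ.Prime)
    (hA : A.LiesOverPrime ℓ) (hA' : A'.LiesOverPrime ℓ) (h : primeBelow A = primeBelow A') :
    A = A' :=
  le_antisymm (le_of_primeBelow_eq A A' ℓ hℓ hA h) (le_of_primeBelow_eq A' A ℓ hℓ hA' h.symm)

/-- The prime below `σ • A` is `σ • (prime below A)`. -/
theorem primeBelow_smul (σ : GQ) (A : ValuationSubring Qb) :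
    primeBelow (σ • A) = σ • primeBelow A := by
  ext b
  rw [Ideal.mem_pointwise_smul_iff_inv_smul_mem, mem_primeBelow, mem_primeBelow,
    mem_nonunits_smul_iff]
  rfl

/-- A closed subgroup `H` of `G_ℚ` acts transitively on the primes of `ℤ̄` having the same
`H`-invariant elements. -/
theorem exists_smul_prime_eq (H : Subgroup GQ) (hH : IsClosed (H : Set GQ))
    (P Q : Ideal Zb) [P.IsPrime] [Q.IsPrime]
    (hPQ : ∀ b : Zb, (∀ h ∈ H, h • b = b) → (b ∈ P ↔ b ∈ Q)) :
    ∃ h ∈ H, Q = h • P := by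
  letI : TopologicalSpace Zb := ⊥
  haveI : DiscreteTopology Zb := ⟨rfl⟩
  haveI : ContinuousSMul GQ Zb := continuousSMul_integralClosure
  haveI : CompactSpace H := isCompact_iff_compactSpace.mp hH.isCompact
  haveI : TotallyDisconnectedSpace H := Subtype.totallyDisconnectedSpace
  haveI : ContinuousSMul H Zb := by
    refine ⟨?_⟩
    have h1 : Continuous fun p : GQ × Zb => p.1 • p.2 := continuous_smul
    exact h1.comp (Continuous.prodMap continuous_subtype_val continuous_id)
  letI A₀ : Subalgebra ℤ Zb := FixedPoints.subalgebra ℤ Zb H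
  haveI : SMulCommClass H A₀ Zb := by
    refine ⟨fun h a b => ?_⟩
    show h • ((a : Zb) * b) = (a : Zb) * (h • b)
    rw [smul_mul']
    congr 1
    exact a.2 h
  haveI : Algebra.IsInvariant A₀ Zb H := ⟨fun b hb => ⟨⟨b, hb⟩, rfl⟩⟩
  have hunder : P.under A₀ = Q.under A₀ := by
    ext a
    simp only [Ideal.mem_comap]
    exact hPQ a.1 (fun h hh => a.2 ⟨h, hh⟩)
  obtain ⟨g, hg⟩ := Algebra.IsInvariant.exists_smul_of_under_eq_of_profinite
    (A := A₀) (B := Zb) (G := H) P Q hunder
  exact ⟨g.1, g.2, hg⟩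

/-- A closed subgroup `H` of `G_ℚ` acts transitively on the valuation subrings of `ℚ̄` over `ℓ`
having the same trace on the `H`-invariant algebraic integers. -/
theorem exists_smul_valuationSubring_eq (H : Subgroup GQ) (hH : IsClosed (H : Set GQ))
    (A A' : ValuationSubring Qb) (ℓ : ℕ) (hℓ : ℓ.Prime)
    (hA : A.LiesOverPrime ℓ) (hA' : A'.LiesOverPrime ℓ)
    (hAA' : ∀ b : Qb, IsIntegral ℤ b → (∀ h ∈ H, h b = b) → (b ∈ A.nonunits ↔ b ∈ A'.nonunits)) :
    ∃ h ∈ H, A' = h • A := by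
  haveI := primeBelow_isPrime A
  haveI := primeBelow_isPrime A'
  obtain ⟨h, hh, hP⟩ := exists_smul_prime_eq H hH (primeBelow A) (primeBelow A')
    (fun b hb => hAA' b.1 b.2 (fun h hh => congrArg Subtype.val (hb h hh)))
  refine ⟨h, hh, ?_⟩
  rw [← primeBelow_smul] at hP
  exact eq_of_primeBelow_eq A' (h • A) ℓ hℓ hA' (liesOverPrime_smul A h ℓ hA) hP

end primes

/-! ## 2. Restriction to a normal intermediate field -/

section restrict

variable {K L : Type*} [Field K] [Field L] [Algebra K L]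

/-- Elements of the decomposition group preserve the nonunits. -/
theorem apply_mem_nonunits_iff (A : ValuationSubring L) (σ : L ≃ₐ[K] L)
    (hσ : σ ∈ A.decompositionSubgroup K) (x : L) : σ x ∈ A.nonunits ↔ x ∈ A.nonunits := by
  rw [mem_decomposition_iff] at hσ
  rw [mem_nonunits_iff_inv_notMem, mem_nonunits_iff_inv_notMem, ← map_inv₀, hσ,
    map_eq_zero_iff σ σ.injective]

variable (A : ValuationSubring Qb) (F : IntermediateField ℚ Qb) [Normal ℚ F]

/-- The defining property of restriction to `F`. -/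
theorem restrict_apply (σ : GQ) (x : F) :
    algebraMap F Qb ((AlgEquiv.restrictNormalHom F σ) x) = σ (algebraMap F Qb x) :=
  AlgEquiv.restrictNormal_commutes σ F x

/-- Restriction maps `D_A` into `D_{A ∩ F}`. -/
theorem restrict_mem_decomposition (σ : GQ) (hσ : σ ∈ A.decompositionSubgroup ℚ) :
    AlgEquiv.restrictNormalHom F σ ∈ (A.comap (algebraMap F Qb)).decompositionSubgroup ℚ := by
  rw [mem_decomposition_iff] at hσ ⊢
  intro x
  rw [ValuationSubring.mem_comap, ValuationSubring.mem_comap]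
  rw [restrict_apply, hσ]

/-- Restriction maps `I_A` into `I_{A ∩ F}`. -/
theorem restrict_mem_inertia (σ : GQ) (hσ : σ ∈ A.inertiaSubgroupIn ℚ) :
    AlgEquiv.restrictNormalHom F σ ∈ (A.comap (algebraMap F Qb)).inertiaSubgroupIn ℚ := by
  rw [mem_inertia_iff] at hσ ⊢
  refine ⟨restrict_mem_decomposition A F σ hσ.1, fun z hz => ?_⟩
  rw [mem_nonunits_comap_iff, map_sub]
  rw [restrict_apply]
  exact hσ.2 _ (ValuationSubring.mem_comap.mp hz)

/-- Elements of `G_F` restrict to the identity of `F`. -/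
theorem restrict_eq_one_of_mem_fixingSubgroup (h : GQ) (hh : h ∈ F.fixingSubgroup) :
    AlgEquiv.restrictNormalHom F h = 1 := by
  ext x
  show algebraMap F Qb ((AlgEquiv.restrictNormalHom F h) x) = algebraMap F Qb x
  rw [restrict_apply]
  exact hh ⟨x.1, x.2⟩

omit [Normal ℚ F] in
/-- An element of `ℚ̄` fixed by `G_F` lies in `F`. -/
theorem mem_of_fixed (b : Qb) (hb : ∀ h ∈ F.fixingSubgroup, h b = b) : b ∈ F := by
  rw [← InfiniteGalois.fixedField_fixingSubgroup F]
  exact fun h => hb h.1 h.2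

/-- **B14, decomposition groups.**  Every element of the decomposition group of `A ∩ F` is the
restriction of an element of the decomposition group of `A`. -/
theorem exists_mem_decomposition_restrict_eq (ℓ : ℕ) (hℓ : ℓ.Prime) (hA : A.LiesOverPrime ℓ)
    (τ : F ≃ₐ[ℚ] F) (hτ : τ ∈ (A.comap (algebraMap F Qb)).decompositionSubgroup ℚ) :
    ∃ σ ∈ A.decompositionSubgroup ℚ, AlgEquiv.restrictNormalHom F σ = τ := by
  obtain ⟨σ₀, hσ₀⟩ := AlgEquiv.restrictNormalHom_surjective Qb τ
  have key : ∀ b : Qb, IsIntegral ℤ b → (∀ h ∈ F.fixingSubgroup, h b = b) →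
      (b ∈ (σ₀ • A).nonunits ↔ b ∈ A.nonunits) := by
    intro b _ hb
    have hbF : b ∈ F := mem_of_fixed F b hb
    rw [mem_nonunits_smul_iff]
    have h1 : σ₀⁻¹ b = algebraMap F Qb (τ⁻¹ ⟨b, hbF⟩) := by
      rw [← hσ₀, ← map_inv, restrict_apply]
      rfl
    rw [h1, ← mem_nonunits_comap_iff,
      apply_mem_nonunits_iff _ τ⁻¹ (Subgroup.inv_mem _ hτ), mem_nonunits_comap_iff]
    rfl
  obtain ⟨h, hh, hA'⟩ := exists_smul_valuationSubring_eq F.fixingSubgroup
    (InfiniteGalois.fixingSubgroup_isClosed F) (σ₀ • A) A ℓ hℓ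
    (liesOverPrime_smul A σ₀ ℓ hA) hA key
  refine ⟨h * σ₀, ?_, ?_⟩
  · rw [MulAction.mem_stabilizer_iff, mul_smul]
    exact hA'.symm
  · rw [map_mul, restrict_eq_one_of_mem_fixingSubgroup F h hh, one_mul, hσ₀]

/-- An element of `G_ℚ` stabilising the prime of `ℤ̄` below `A` lies in `D_A`. -/
theorem mem_decomposition_of_smul_primeBelow (ℓ : ℕ) (hℓ : ℓ.Prime) (hA : A.LiesOverPrime ℓ)
    (g : GQ) (hg : g • primeBelow A = primeBelow A) : g ∈ A.decompositionSubgroup ℚ := by
  rw [MulAction.mem_stabilizer_iff]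
  rw [← primeBelow_smul] at hg
  exact eq_of_primeBelow_eq (g • A) A ℓ hℓ (liesOverPrime_smul A g ℓ hA) hA hg

/-- An element of `D_A` acting trivially on `ℤ̄` modulo the prime below `A` lies in `I_A`. -/
theorem mem_inertia_of_integral (ℓ : ℕ) (hℓ : ℓ.Prime) (hA : A.LiesOverPrime ℓ)
    (σ : GQ) (hσ : σ ∈ A.decompositionSubgroup ℚ)
    (h : ∀ b : Qb, IsIntegral ℤ b → σ b - b ∈ A.nonunits) : σ ∈ A.inertiaSubgroupIn ℚ := by
  rw [mem_inertia_iff]
  refine ⟨hσ, fun z hz => ?_⟩
  obtain ⟨b, s, hb, hs, hsA, hzs⟩ := (mem_valuationSubring_iff A ℓ hℓ hA z).mp hz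
  have hσs : σ s ∉ A.nonunits := by
    rw [apply_mem_nonunits_iff A σ hσ]
    exact hsA
  have hσsA : σ s ∈ A := isIntegral_mem_valuationSubring A (hs.map σ)
  have hv1 : A.valuation (σ s) = 1 := by
    rw [ValuationSubring.mem_nonunits_iff, not_lt] at hσs
    exact le_antisymm ((A.valuation_le_one_iff _).mpr hσsA) hσs
  have hid : (σ z - z) * σ s = (σ b - b) + z * (s - σ s) := by
    have : σ z * σ s = σ b := by rw [← map_mul, hzs]
    calc (σ z - z) * σ s = σ z * σ s - z * σ s := by ring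
      _ = σ b - z * σ s := by rw [this]
      _ = (σ b - b) + (z * s - z * σ s) := by rw [hzs]; ring
      _ = (σ b - b) + z * (s - σ s) := by ring
  have h1 : A.valuation (σ b - b) < 1 := (ValuationSubring.mem_nonunits_iff A).mp (h b hb)
  have h2 : A.valuation (z * (s - σ s)) < 1 := by
    rw [map_mul]
    have h3 : A.valuation (s - σ s) < 1 := by
      have := (ValuationSubring.mem_nonunits_iff A).mp (h s hs)
      rwa [← Valuation.map_neg, neg_sub] at this
    have h4 : A.valuation z ≤ 1 := (A.valuation_le_one_iff z).mpr hz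
    calc A.valuation z * A.valuation (s - σ s) ≤ 1 * A.valuation (s - σ s) :=
          mul_le_mul_left h4 _
      _ = A.valuation (s - σ s) := one_mul _
      _ < 1 := h3
  rw [ValuationSubring.mem_nonunits_iff]
  have h5 : A.valuation ((σ z - z) * σ s) < 1 := by
    rw [hid]
    exact lt_of_le_of_lt (A.valuation.map_add _ _) (max_lt h1 h2)
  rwa [map_mul, hv1, mul_one] at h5

/-- The stabiliser in a closed subgroup `H ≤ G_ℚ` of a prime `Q` of `ℤ̄` induces every
automorphism of `ℤ̄ / Q` which is trivial on the classes of the `H`-invariant elements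
(elementwise form of `Ideal.Quotient.stabilizerHom_surjective_of_profinite`). -/
theorem exists_mem_stabilizer_of_fixes (H : Subgroup GQ) (hH : IsClosed (H : Set GQ))
    (Q : Ideal Zb) [Q.IsPrime] (g : GQ) (hg : g • Q = Q)
    (hfix : ∀ a : Zb, (∀ h ∈ H, h • a = a) → g • a - a ∈ Q) :
    ∃ h ∈ H, h • Q = Q ∧ ∀ b : Zb, h • b - g • b ∈ Q := by
  letI : TopologicalSpace Zb := ⊥
  haveI : DiscreteTopology Zb := ⟨rfl⟩
  haveI : ContinuousSMul GQ Zb := continuousSMul_integralClosure
  haveI : CompactSpace H := isCompact_iff_compactSpace.mp hH.isCompact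
  haveI : TotallyDisconnectedSpace H := Subtype.totallyDisconnectedSpace
  haveI : ContinuousSMul H Zb := by
    refine ⟨?_⟩
    have h1 : Continuous fun p : GQ × Zb => p.1 • p.2 := continuous_smul
    exact h1.comp (Continuous.prodMap continuous_subtype_val continuous_id)
  letI A₀ : Subalgebra ℤ Zb := FixedPoints.subalgebra ℤ Zb H
  haveI : SMulCommClass H A₀ Zb := by
    refine ⟨fun h a b => ?_⟩
    show h • ((a : Zb) * b) = (a : Zb) * (h • b)
    rw [smul_mul']
    congr 1
    exact a.2 h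
  haveI : Algebra.IsInvariant A₀ Zb H := ⟨fun b hb => ⟨⟨b, hb⟩, rfl⟩⟩
  -- the automorphism of `ℤ̄ / Q` induced by `g`, as an algebra automorphism over `A₀ / (Q ∩ A₀)`
  let ρ : (Zb ⧸ Q) ≃ₐ[ℤ ⧸ Q.under ℤ] (Zb ⧸ Q) :=
    Ideal.Quotient.stabilizerHom Q (Q.under ℤ) GQ ⟨g, hg⟩
  have hρ : ∀ b : Zb, ρ (Ideal.Quotient.mk Q b) = Ideal.Quotient.mk Q (g • b) := fun b => rfl
  let e : (Zb ⧸ Q) ≃ₐ[A₀ ⧸ Q.under A₀] (Zb ⧸ Q) :=
    AlgEquiv.ofRingEquiv (f := ρ.toRingEquiv) (by
      intro y
      obtain ⟨a, rfl⟩ := Ideal.Quotient.mk_surjective y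
      show ρ (Ideal.Quotient.mk Q (a : Zb)) = Ideal.Quotient.mk Q (a : Zb)
      rw [hρ, Ideal.Quotient.eq]
      exact hfix a.1 (fun h hh => a.2 ⟨h, hh⟩))
  obtain ⟨h, hh⟩ := Ideal.Quotient.stabilizerHom_surjective_of_profinite
    (G := H) (Q.under A₀) Q e
  refine ⟨h.1.1, h.1.2, h.2, fun b => ?_⟩
  have h1 := congrArg (fun f => f (Ideal.Quotient.mk Q b)) hh
  simp only [Ideal.Quotient.stabilizerHom_apply] at h1
  rw [← Ideal.Quotient.eq]
  exact h1

/-- **B14, inertia groups.**  Every element of the inertia group of `A ∩ F` is the restriction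
of an element of the inertia group of `A`. -/
theorem exists_mem_inertia_restrict_eq (ℓ : ℕ) (hℓ : ℓ.Prime) (hA : A.LiesOverPrime ℓ)
    (τ : F ≃ₐ[ℚ] F) (hτ : τ ∈ (A.comap (algebraMap F Qb)).inertiaSubgroupIn ℚ) :
    ∃ σ ∈ A.inertiaSubgroupIn ℚ, AlgEquiv.restrictNormalHom F σ = τ := by
  have hτinv := Subgroup.inv_mem _ hτ
  rw [mem_inertia_iff] at hτ hτinv
  obtain ⟨σ, hσD, hσ⟩ := exists_mem_decomposition_restrict_eq A F ℓ hℓ hA τ hτ.1
  haveI := primeBelow_isPrime A
  have hσinvD : σ⁻¹ ∈ A.decompositionSubgroup ℚ := Subgroup.inv_mem _ hσD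
  have hσQ : σ⁻¹ • primeBelow A = primeBelow A := by
    rw [← primeBelow_smul]
    congr 1
  obtain ⟨h, hh, hhQ, hcong⟩ := exists_mem_stabilizer_of_fixes F.fixingSubgroup
    (InfiniteGalois.fixingSubgroup_isClosed F) (primeBelow A) σ⁻¹ hσQ (by
      intro a ha
      have haF : (a : Qb) ∈ F :=
        mem_of_fixed F a (fun h hh => congrArg Subtype.val (ha h hh))
      rw [mem_primeBelow]
      show σ⁻¹ (a : Qb) - (a : Qb) ∈ A.nonunits
      have h1 : σ⁻¹ (a : Qb) = algebraMap F Qb (τ⁻¹ ⟨a, haF⟩) := by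
        rw [← hσ, ← map_inv, restrict_apply]
        rfl
      have h3 : σ⁻¹ (a : Qb) - (a : Qb) =
          algebraMap F Qb (τ⁻¹ (⟨a, haF⟩ : F) - (⟨a, haF⟩ : F)) := by
        rw [map_sub, ← h1]
        rfl
      rw [h3, ← mem_nonunits_comap_iff]
      refine hτinv.2 _ ?_
      rw [ValuationSubring.mem_comap]
      exact isIntegral_mem_valuationSubring A a.2)
  have hhD : h ∈ A.decompositionSubgroup ℚ :=
    mem_decomposition_of_smul_primeBelow A ℓ hℓ hA h hhQ
  refine ⟨h * σ, ?_, ?_⟩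
  · refine mem_inertia_of_integral A ℓ hℓ hA (h * σ) (Subgroup.mul_mem _ hhD hσD) ?_
    intro b hb
    have h1 := hcong ⟨σ b, hb.map σ⟩
    rw [mem_primeBelow] at h1
    have h2 : ((h • (⟨σ b, hb.map σ⟩ : Zb) - σ⁻¹ • (⟨σ b, hb.map σ⟩ : Zb) : Zb) : Qb)
        = (h * σ) b - b := by
      show h (σ b) - σ⁻¹ (σ b) = (h * σ) b - b
      have : σ⁻¹ (σ b) = b := by
        show (σ⁻¹ * σ) b = b
        rw [inv_mul_cancel]
        rfl
      rw [this]
      rfl
    rw [h2] at h1
    exact h1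
  · rw [map_mul, restrict_eq_one_of_mem_fixingSubgroup F h hh, one_mul, hσ]

/-- **B14.**  The image of `D_A` in `Gal(F/ℚ)` is `D_{A ∩ F}`. -/
theorem map_decompositionSubgroup (ℓ : ℕ) (hℓ : ℓ.Prime) (hA : A.LiesOverPrime ℓ) :
    (A.decompositionSubgroup ℚ).map (AlgEquiv.restrictNormalHom F) =
      (A.comap (algebraMap F Qb)).decompositionSubgroup ℚ := by
  ext τ
  constructor
  · rintro ⟨σ, hσ, rfl⟩
    exact restrict_mem_decomposition A F σ hσ
  · intro hτ
    obtain ⟨σ, hσ, rfl⟩ := exists_mem_decomposition_restrict_eq A F ℓ hℓ hA τ hτ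
    exact ⟨σ, hσ, rfl⟩

/-- **B14.**  The image of `I_A` in `Gal(F/ℚ)` is `I_{A ∩ F}`. -/
theorem map_inertiaSubgroupIn (ℓ : ℕ) (hℓ : ℓ.Prime) (hA : A.LiesOverPrime ℓ) :
    (A.inertiaSubgroupIn ℚ).map (AlgEquiv.restrictNormalHom F) =
      (A.comap (algebraMap F Qb)).inertiaSubgroupIn ℚ := by
  ext τ
  constructor
  · rintro ⟨σ, hσ, rfl⟩
    exact restrict_mem_inertia A F σ hσ
  · intro hτ
    obtain ⟨σ, hσ, rfl⟩ := exists_mem_inertia_restrict_eq A F ℓ hℓ hA τ hτ
    exact ⟨σ, hσ, rfl⟩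

/-- `F` is unramified at `A` in the Prelude sense (`I_A ≤ G_F`) iff the inertia group of
`A ∩ F` in `Gal(F/ℚ)` is trivial. -/
theorem inertia_le_fixingSubgroup_iff (ℓ : ℕ) (hℓ : ℓ.Prime) (hA : A.LiesOverPrime ℓ) :
    A.inertiaSubgroupIn ℚ ≤ F.fixingSubgroup ↔
      (A.comap (algebraMap F Qb)).inertiaSubgroupIn ℚ = ⊥ := by
  rw [← map_inertiaSubgroupIn A F ℓ hℓ hA, Subgroup.map_eq_bot_iff]
  constructor
  · intro h σ hσ
    rw [MonoidHom.mem_ker]
    exact restrict_eq_one_of_mem_fixingSubgroup F σ (h hσ)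
  · intro h σ hσ
    have h1 : AlgEquiv.restrictNormalHom F σ = 1 := MonoidHom.mem_ker.mp (h hσ)
    rw [IntermediateField.mem_fixingSubgroup_iff]
    intro x hx
    have h2 := restrict_apply F σ ⟨x, hx⟩
    rw [h1] at h2
    exact h2.symm

end restrict

end Fermat.Agent.S55.Bridge.H959
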